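import Fermat.Agent.Lifting.Contracts
import Fermat.Agent.Lifting.Residual.TaylorWiles

/-!
# Minimal residual levels of a semistable curve

* `IsMinimalResidualLevel W p M`: a squarefree residual level, minimal for divisibility, divisible
  by `p` only if `W` is multiplicative at `p`;
* `NoMinimalTWLevel`: a minimal level carries no residually unramified `q ≠ p`, `q ≡ 1 (mod p)`
  (the output of the twisted patching argument).
-/

set_option autoImplicit false

noncomputable section

open scoped WeierstrassCurve.Affine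

namespace Fermat.Agent.Lifting.Minimal

local notation "ℚ̄" => AlgebraicClosure ℚ

/-- A squarefree residual level minimal for divisibility. -/
structure IsMinimalResidualLevel (W : WeierstrassCurve ℤ) (p M : ℕ) : Prop where
  pos : 0 < M
  squarefree : Squarefree M
  mult_of_dvd : p ∣ M → (p : ℤ) ∣ W.Δ
  residual : W.IsResiduallyModularOfLevel p M
  minimal : ∀ M' : ℕ, M' ∣ M → W.IsResiduallyModularOfLevel p M' → M' = M

/-- The output of the twisted patching argument: when every residually unramified `q ≠ p` of a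
minimal level is `≡ 1` or has `q² ≢ 1 (mod p)`, none of them is `≡ 1`. -/
def NoMinimalTWLevel : Prop :=
  ∀ (p : ℕ), p.Prime → p ≠ 2 → ∀ (W : WeierstrassCurve ℤ), W.Δ ≠ 0 → W.IsSemistableModel →
    W.ModRepIsIrreducible p →
    ∀ M : ℕ, IsMinimalResidualLevel W p M →
    (∀ q : ℕ, q.Prime → q ∣ M → q ≠ p → ResiduallyUnramifiedAt W p q →
      (q : ZMod p) = 1 ∨ (q : ZMod p) ^ 2 ≠ 1) →
    ∀ q : ℕ, q.Prime → q ∣ M → q ≠ p → ResiduallyUnramifiedAt W p q → (q : ZMod p) ≠ 1

theorem IsMinimalResidualLevel.sq_not_dvd {W : WeierstrassCurve ℤ} {p M : ℕ}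
    (hM : IsMinimalResidualLevel W p M) {q : ℕ} (hq : q.Prime) : ¬ q ^ 2 ∣ M := fun h => by
  rw [pow_two] at h
  exact hq.ne_one (Nat.isUnit_iff.1 (hM.squarefree q h))

/-- Below every admissible squarefree level there is a minimal one. -/
theorem exists_minimalResidualLevel {W : WeierstrassCurve ℤ} {p N : ℕ} (hN : 0 < N)
    (hsf : Squarefree N) (hpN : p ∣ N → (p : ℤ) ∣ W.Δ)
    (hres : W.IsResiduallyModularOfLevel p N) :
    ∃ M : ℕ, M ∣ N ∧ IsMinimalResidualLevel W p M := by
  classical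
  have hex : ∃ M : ℕ, M ∣ N ∧ W.IsResiduallyModularOfLevel p M := ⟨N, dvd_rfl, hres⟩
  obtain ⟨hMN, hM⟩ := Nat.find_spec hex
  have hpos : 0 < Nat.find hex := Nat.pos_of_dvd_of_pos hMN hN
  exact ⟨_, hMN, hpos, hsf.squarefree_of_dvd hMN, fun h => hpN (h.trans hMN), hM, fun M' hd hm =>
    (Nat.le_of_dvd hpos hd).antisymm (Nat.find_min' hex ⟨hd.trans hMN, hm⟩)⟩

theorem torsRep_isUnramifiedAt_iff_residual {W : WeierstrassCurve ℤ} {p : ℕ} [Fact p.Prime]
    (hΔ : W.Δ ≠ 0) (q : ℕ) :
    (Residual.torsRep W p hΔ).IsUnramifiedAt q ↔ ResiduallyUnramifiedAt W p q :=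
  ⟨fun h A hA σ hσ x => LinearMap.congr_fun (h A hA σ hσ) x,
    fun h A hA σ hσ => LinearMap.ext fun x => h A hA σ hσ x⟩

end Fermat.Agent.Lifting.Minimal
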