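import Fermat.Agent.Lifting.Minimal.Defs
import Fermat.Agent.RT.NewformDescent
import Fermat.Agent.RT.NewformResidual
import Fermat.Agent.RT.TorsionFrobenius
import Fermat.Agent.LevelP.PNew
import Fermat.Agent.Density.CharpolyDetermines
import Fermat.Agent.Density.Transfer
import Fermat.Agent.Galois.Frobenius

/-!
# The residual eigen-system at a minimal level of a semistable curve

A newform of exact level `M` is congruent to `W`; its residual representation is `W[p]`; so every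
prime `q ≠ p` where `W[p]` is ramified divides `M`, and at every prime `q ≠ p` of `M` the residual
Frobenius eigenvalues are `ε, qε` with `ε = ±1`.
-/

set_option autoImplicit false
set_option linter.style.haveILetI false

noncomputable section

open scoped WeierstrassCurve.Affine TensorProduct
open Polynomial ModularFormClass

namespace Fermat.Agent.Lifting.Minimal

local notation "ℚ̄" => AlgebraicClosure ℚ

variable {W : WeierstrassCurve ℤ} {p M : ℕ}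

/-- A newform of exact level `M` congruent to `W` at the good primes. -/
theorem IsMinimalResidualLevel.exists_newform (hS29 : RT.EigenformResidualRep)
    (hM : IsMinimalResidualLevel W p M) (hΔ : W.Δ ≠ 0) (hp : p.Prime) :
    ∃ (g : CuspForm (CongruenceSubgroup.Gamma0 M) 2) (𝔪 : Ideal (integralClosure ℤ ℂ)),
      g.IsNewform ∧ 𝔪.IsMaximal ∧ (p : integralClosure ℤ ℂ) ∈ 𝔪 ∧
      ∀ ℓ : ℕ, ℓ.Prime → W.IsGoodPrimeFor ℓ → ¬ ℓ ∣ M → ℓ ≠ p →
        ∃ a : integralClosure ℤ ℂ, (a : ℂ) = qCoeff g ℓ ∧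
          a - ((W.apOfModel ℓ : ℤ) : integralClosure ℤ ℂ) ∈ 𝔪 := by
  classical
  obtain ⟨M', hd, g, 𝔪, hg, hmax, hpm, hcong⟩ := RT.exists_newform_congruent hM.residual hM.pos
  have hM' : 0 < M' := Nat.pos_of_dvd_of_pos hd hM.pos
  have hres : W.IsResiduallyModularOfLevel p M' :=
    RT.isResiduallyModularOfLevel_of_cofinite hS29 RT.torsionFrobeniusCharpoly hΔ hp hM' hg.1 hmax
      hpm ({p} ∪ M.primeFactors ∪ W.Δ.natAbs.primeFactors) fun ℓ hℓ hℓS => by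
        simp only [Finset.mem_union, Finset.mem_singleton, Nat.mem_primeFactors, not_or] at hℓS
        exact hcong ℓ hℓ (fun hd => hℓS.2 ⟨hℓ, Int.natCast_dvd.1 hd, Int.natAbs_ne_zero.2 hΔ⟩)
          (fun hd => hℓS.1.2 ⟨hℓ, hd, hM.pos.ne'⟩) hℓS.1.1
  obtain rfl := hM.minimal M' hd hres
  exact ⟨g, 𝔪, hg, hmax, hpm, hcong⟩

variable [Fact p.Prime] (hΔ : W.Δ ≠ 0)

/-- The residual representation of an eigenform congruent outside a finite set is `W[p]`. -/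
theorem torsRep_isEquiv_attached_cofinite (hp2 : p ≠ 2) (hirr : W.ModRepIsIrreducible p) (hM0 : 0 < M)
    {g : CuspForm (CongruenceSubgroup.Gamma0 M) 2}
    {k : Type} [Field k] (φ : integralClosure ℤ ℂ →+* k) (ι : ZMod p →+* k)
    (T : Finset ℕ) (hcong : ∀ ℓ : ℕ, ℓ.Prime → ℓ ∉ T → W.IsGoodPrimeFor ℓ → ¬ ℓ ∣ M → ℓ ≠ p →
      ∃ a : integralClosure ℤ ℂ, (a : ℂ) = qCoeff g ℓ ∧
        φ a = φ ((W.apOfModel ℓ : ℤ) : integralClosure ℤ ℂ))
    (ρ : ResidualGaloisRep k) (hρ : ρ.IsAttachedTo g φ) :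
    ((Residual.torsRep W p hΔ).baseChangeAlong ι).IsEquiv ρ := by
  classical
  have hp : p.Prime := Fact.out
  have hp0 : (p : k) = 0 := by rw [← map_natCast ι, ZMod.natCast_self, map_zero]
  haveI : CharP k p := (CharP.charP_iff_prime_eq_zero hp).2 hp0
  refine Density.residual_isEquiv_of_frobenius _ _
    ({p} ∪ M.primeFactors ∪ W.Δ.natAbs.primeFactors ∪ T)
    (Residual.torsRep_baseChangeAlong_isAbsolutelyIrreducible hΔ hp2 hirr ι)
    fun ℓ hℓ hℓS A hA σ hσ => ?_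
  simp only [Finset.mem_union, Finset.mem_singleton, Nat.mem_primeFactors, not_or] at hℓS
  obtain ⟨⟨⟨hℓp, h3⟩, h4⟩, hℓT⟩ := hℓS
  have hℓM : ¬ ℓ ∣ M := fun hd => h3 ⟨hℓ, hd, hM0.ne'⟩
  have hgood : W.IsGoodPrimeFor ℓ := fun hd =>
    h4 ⟨hℓ, Int.natCast_dvd.1 hd, Int.natAbs_ne_zero.2 hΔ⟩
  have hne : (ℓ : k) ≠ 0 := fun h0 =>
    hℓp ((Nat.prime_dvd_prime_iff_eq hp hℓ).1 ((CharP.cast_eq_zero_iff _ p ℓ).1 h0)).symm
  obtain ⟨a, ha, hch⟩ := hρ ℓ hℓ hℓM hne A hA σ hσ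
  obtain ⟨b, hb, hbeq⟩ := hcong ℓ hℓ hℓT hgood hℓM hℓp
  obtain rfl : a = b := Subtype.ext (ha.trans hb.symm)
  rw [hch, hbeq, RT.charpoly_baseChangeAlong,
    show LinearMap.charpoly ((Residual.torsRep W p hΔ).ρ σ) =
      X ^ 2 - C (W.apOfModel ℓ : ZMod p) * X + C (ℓ : ZMod p) from
      EC.charpoly_residualGaloisRepOf W hℓ hA hgood hσ hℓp _ _]
  simp

/-- The residual representation of a congruent eigenform is `W[p]`. -/
theorem torsRep_isEquiv_attached (hp2 : p ≠ 2) (hirr : W.ModRepIsIrreducible p) (hM0 : 0 < M)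
    {g : CuspForm (CongruenceSubgroup.Gamma0 M) 2}
    {k : Type} [Field k] (φ : integralClosure ℤ ℂ →+* k) (ι : ZMod p →+* k)
    (hcong : ∀ ℓ : ℕ, ℓ.Prime → W.IsGoodPrimeFor ℓ → ¬ ℓ ∣ M → ℓ ≠ p →
      ∃ a : integralClosure ℤ ℂ, (a : ℂ) = qCoeff g ℓ ∧
        φ a = φ ((W.apOfModel ℓ : ℤ) : integralClosure ℤ ℂ))
    (ρ : ResidualGaloisRep k) (hρ : ρ.IsAttachedTo g φ) :
    ((Residual.torsRep W p hΔ).baseChangeAlong ι).IsEquiv ρ :=
  torsRep_isEquiv_attached_cofinite hΔ hp2 hirr hM0 φ ι ∅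
    (fun ℓ hℓ _ => hcong ℓ hℓ) ρ hρ

include hΔ in
/-- Every prime `q ≠ p` where `W[p]` is ramified divides a minimal level. -/
theorem IsMinimalResidualLevel.dvd_of_ramified (hS29 : RT.EigenformResidualRep)
    (hM : IsMinimalResidualLevel W p M) (hp2 : p ≠ 2) (hirr : W.ModRepIsIrreducible p) {q : ℕ}
    (hq : q.Prime) (hqp : q ≠ p) (hram : ¬ ResiduallyUnramifiedAt W p q) : q ∣ M := by
  have hp : p.Prime := Fact.out
  by_contra hqM
  refine hram ((torsRep_isUnramifiedAt_iff_residual hΔ q).1 fun A hA σ hσ => ?_)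
  obtain ⟨g, 𝔪, hg, hmax, hpm, hcong⟩ := hM.exists_newform hS29 hΔ hp
  letI : Field (integralClosure ℤ ℂ ⧸ 𝔪) := Ideal.Quotient.field 𝔪
  set φ : integralClosure ℤ ℂ →+* integralClosure ℤ ℂ ⧸ 𝔪 := Ideal.Quotient.mk 𝔪
  have hp0 : (p : integralClosure ℤ ℂ ⧸ 𝔪) = 0 := by
    rw [← map_natCast φ]
    exact Ideal.Quotient.eq_zero_iff_mem.2 hpm
  haveI : CharP (integralClosure ℤ ℂ ⧸ 𝔪) p := (CharP.charP_iff_prime_eq_zero hp).2 hp0
  obtain ⟨ρ, hρ, hunr⟩ := hS29 hg.1 hp φ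
  set ι : ZMod p →+* integralClosure ℤ ℂ ⧸ 𝔪 := ZMod.castHom dvd_rfl _
  obtain ⟨e⟩ := torsRep_isEquiv_attached hΔ hp2 hirr hM.pos φ ι (fun ℓ hℓ hgood hℓM hℓp => by
    obtain ⟨a, ha, ham⟩ := hcong ℓ hℓ hgood hℓM hℓp
    exact ⟨a, ha, Ideal.Quotient.eq.2 ham⟩) ρ hρ
  have hq' : ¬ q ∣ M * p := fun hd => (hq.dvd_mul.1 hd).elim hqM fun h =>
    hqp ((Nat.prime_dvd_prime_iff_eq hq hp).1 h)
  have h1 : ((Residual.torsRep W p hΔ).baseChangeAlong ι).ρ σ = 1 := by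
    refine LinearMap.ext fun v => e.toLinearEquiv.injective ?_
    rw [e.map_apply, hunr q hq hq' A hA σ hσ, Module.End.one_apply, Module.End.one_apply]
  refine LinearMap.ext fun v => ?_
  letI : Algebra (ZMod p) (integralClosure ℤ ℂ ⧸ 𝔪) := ι.toAlgebra
  have h' := LinearMap.congr_fun
    (show ((Residual.torsRep W p hΔ).ρ σ).baseChange (integralClosure ℤ ℂ ⧸ 𝔪) = 1 from h1)
    ((1 : integralClosure ℤ ℂ ⧸ 𝔪) ⊗ₜ[ZMod p] v)
  rw [LinearMap.baseChange_tmul, Module.End.one_apply] at h'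
  rw [Module.End.one_apply]
  exact RT.tmul_one_injective h'

include hΔ in
/-- At a prime `q ≠ p` of a minimal level the residual Frobenius has eigenvalues `ε, qε`. -/
theorem IsMinimalResidualLevel.frobenius_charpoly (hS29 : RT.EigenformResidualRep)
    (h35 : BadPrime.NewformMultRep) (hM : IsMinimalResidualLevel W p M) (hp2 : p ≠ 2)
    (hirr : W.ModRepIsIrreducible p) {q : ℕ} (hq : q.Prime) (hqp : q ≠ p) (hqM : q ∣ M)
    (A : ValuationSubring ℚ̄) (hA : A.LiesOverPrime q) (σ : ℚ̄ ≃ₐ[ℚ] ℚ̄)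
    (hσ : A.IsFrobeniusAt σ q) :
    ∃ ε : ZMod p, ε * ε = 1 ∧ LinearMap.charpoly ((Residual.torsRep W p hΔ).ρ σ) =
      X ^ 2 - C (ε * ((q : ZMod p) + 1)) * X + C (q : ZMod p) := by
  have hp : p.Prime := Fact.out
  obtain ⟨g, 𝔪, hg, hmax, hpm, hcong⟩ := hM.exists_newform hS29 hΔ hp
  haveI : NeZero M := ⟨hM.pos.ne'⟩
  letI : Field (integralClosure ℤ ℂ ⧸ 𝔪) := Ideal.Quotient.field 𝔪
  set φ : integralClosure ℤ ℂ →+* integralClosure ℤ ℂ ⧸ 𝔪 := Ideal.Quotient.mk 𝔪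
  have hp0 : (p : integralClosure ℤ ℂ ⧸ 𝔪) = 0 := by
    rw [← map_natCast φ]
    exact Ideal.Quotient.eq_zero_iff_mem.2 hpm
  haveI : CharP (integralClosure ℤ ℂ ⧸ 𝔪) p := (CharP.charP_iff_prime_eq_zero hp).2 hp0
  obtain ⟨ρ, hρ, hmult⟩ := RT.exists_residualRep_newform h35 hg hp φ
  set ι : ZMod p →+* integralClosure ℤ ℂ ⧸ 𝔪 := ZMod.castHom dvd_rfl _
  have he := torsRep_isEquiv_attached hΔ hp2 hirr hM.pos φ ι (fun ℓ hℓ hgood hℓM hℓp => by
    obtain ⟨a, ha, ham⟩ := hcong ℓ hℓ hgood hℓM hℓp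
    exact ⟨a, ha, Ideal.Quotient.eq.2 ham⟩) ρ hρ
  obtain ⟨ε, hε, hch⟩ := hmult q hq hqp hqM (hM.sq_not_dvd hq) A hA σ hσ
  rw [Density.residual_charpoly_eq_of_isEquiv he, RT.charpoly_baseChangeAlong] at hch
  obtain ⟨e, he1, hee⟩ : ∃ e : ZMod p, e * e = 1 ∧ ε = ι e := by
    rcases mul_self_eq_one_iff.1 hε with rfl | rfl
    · exact ⟨1, one_mul 1, (map_one ι).symm⟩
    · exact ⟨-1, by simp, by simp⟩
  refine ⟨e, he1, Polynomial.map_injective ι ι.injective (hch.trans ?_)⟩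
  simp [hee, Polynomial.map_natCast]

include hΔ in
/-- At a prime `q ≡ 1 (mod p)` of a minimal level both eigenvalues are the sign `ε`. -/
theorem IsMinimalResidualLevel.frobenius_charpoly_of_one_mod (hS29 : RT.EigenformResidualRep)
    (h35 : BadPrime.NewformMultRep) (hM : IsMinimalResidualLevel W p M) (hp2 : p ≠ 2)
    (hirr : W.ModRepIsIrreducible p) {q : ℕ} (hq : q.Prime) (hqp : q ≠ p) (hqM : q ∣ M)
    (hq1 : (q : ZMod p) = 1) (A : ValuationSubring ℚ̄) (hA : A.LiesOverPrime q)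
    (σ : ℚ̄ ≃ₐ[ℚ] ℚ̄) (hσ : A.IsFrobeniusAt σ q) :
    ∃ ε : ZMod p, ε * ε = 1 ∧
      LinearMap.charpoly ((Residual.torsRep W p hΔ).ρ σ) = (X - C ε) ^ 2 := by
  obtain ⟨ε, hε, h⟩ := hM.frobenius_charpoly hΔ hS29 h35 hp2 hirr hq hqp hqM A hA σ hσ
  refine ⟨ε, hε, h.trans ?_⟩
  rw [hq1, sub_sq, ← map_pow, sq ε, hε, map_mul, map_add, map_one]
  ring

end Fermat.Agent.Lifting.Minimal
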