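import Fermat.Agent.Lifting.Minimal.Local
import Fermat.Agent.RT.Assembly.Defs
import Fermat.Agent.RT.FreyResidual
import Fermat.Agent.HeckeFinite.Finite

/-!
# The fields of the patching base attached to a minimal level

* `residualSystem W k`: the residues of `a_ℓ(W)`;
* `IsMinimalResidualLevel.dvd_of_isNewformSystem`: a newform of level dividing `M r` congruent to
  `W`, with `r` made of good primes at which `a_q² ≢ (q + 1)²`, has level divisible by `M`.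
-/

set_option autoImplicit false
set_option linter.style.haveILetI false

noncomputable section

open IsLocalRing Polynomial ModularFormClass

namespace Fermat.Agent.Lifting.Minimal

local notation "ℚ̄" => AlgebraicClosure ℚ
local notation "Γℚ" => (AlgebraicClosure ℚ ≃ₐ[ℚ] AlgebraicClosure ℚ)

variable {W : WeierstrassCurve ℤ} {p M : ℕ} [hp : Fact p.Prime]

/-- The residues of `a_ℓ(W)`. -/
def residualSystem (W : WeierstrassCurve ℤ) (k : Type) [Ring k] (ℓ : Nat.Primes) : k :=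
  ((W.apOfModel ℓ : ℤ) : k)

/-- The characteristic polynomial of Frobenius at a good prime, over `k`. -/
theorem torsRep_baseChange_charpoly_frob (hΔ : W.Δ ≠ 0) {k : Type} [Field k] (ι : ZMod p →+* k)
    (ℓ : Nat.Primes) (hℓp : (ℓ : ℕ) ≠ p) (hgood : W.IsGoodPrimeFor ℓ) (A : ValuationSubring ℚ̄)
    (hA : A.LiesOverPrime ℓ) (σ : Γℚ) (hσ : A.IsFrobeniusAt σ (ℓ : ℕ)) :
    LinearMap.charpoly (((Residual.torsRep W p hΔ).baseChangeAlong ι).ρ σ) =
      X ^ 2 - C (residualSystem W k ℓ) * X + C ((ℓ : ℕ) : k) := by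
  rw [RT.charpoly_baseChangeAlong,
    show LinearMap.charpoly ((Residual.torsRep W p hΔ).ρ σ) =
      X ^ 2 - C (W.apOfModel ℓ : ZMod p) * X + C ((ℓ : ℕ) : ZMod p) from
      EC.charpoly_residualGaloisRepOf W ℓ.2 hA hgood hσ hℓp _ _]
  simp [residualSystem]

/-- The characteristic polynomial of Frobenius at a prime `q ∥ L` of a congruent newform. -/
theorem frobenius_charpoly_of_congruent (h35 : BadPrime.NewformMultRep) (hΔ : W.Δ ≠ 0)
    (hp2 : p ≠ 2) (hirr : W.ModRepIsIrreducible p) {L : ℕ} [NeZero L]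
    {g : CuspForm (CongruenceSubgroup.Gamma0 L) 2} (hg : g.IsNewform)
    {𝔪 : Ideal (integralClosure ℤ ℂ)} (hmax : 𝔪.IsMaximal) (hpm : (p : integralClosure ℤ ℂ) ∈ 𝔪)
    (T : Finset ℕ) (hcong : ∀ ℓ : ℕ, ℓ.Prime → ℓ ∉ T → W.IsGoodPrimeFor ℓ → ¬ ℓ ∣ L → ℓ ≠ p →
      ∃ a : integralClosure ℤ ℂ, (a : ℂ) = qCoeff g ℓ ∧
        a - ((W.apOfModel ℓ : ℤ) : integralClosure ℤ ℂ) ∈ 𝔪)
    {q : ℕ} (hq : q.Prime) (hqp : q ≠ p) (hqL : q ∣ L) (hq2 : ¬ q ^ 2 ∣ L)
    (A : ValuationSubring ℚ̄) (hA : A.LiesOverPrime q) (σ : Γℚ) (hσ : A.IsFrobeniusAt σ q) :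
    ∃ ε : ZMod p, ε * ε = 1 ∧ LinearMap.charpoly ((Residual.torsRep W p hΔ).ρ σ) =
      X ^ 2 - C (ε * ((q : ZMod p) + 1)) * X + C (q : ZMod p) := by
  letI : Field (integralClosure ℤ ℂ ⧸ 𝔪) := Ideal.Quotient.field 𝔪
  set φ : integralClosure ℤ ℂ →+* integralClosure ℤ ℂ ⧸ 𝔪 := Ideal.Quotient.mk 𝔪
  have hp0 : (p : integralClosure ℤ ℂ ⧸ 𝔪) = 0 := by
    rw [← map_natCast φ]
    exact Ideal.Quotient.eq_zero_iff_mem.2 hpm
  haveI : CharP (integralClosure ℤ ℂ ⧸ 𝔪) p := (CharP.charP_iff_prime_eq_zero hp.out).2 hp0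
  obtain ⟨ρ, hρ, hmult⟩ := RT.exists_residualRep_newform h35 hg hp.out φ
  set ι : ZMod p →+* integralClosure ℤ ℂ ⧸ 𝔪 := ZMod.castHom dvd_rfl _
  have he := torsRep_isEquiv_attached_cofinite hΔ hp2 hirr (Nat.pos_of_ne_zero (NeZero.ne L)) φ ι T
    (fun ℓ hℓ hℓT hgood hℓL hℓp => by
      obtain ⟨a, ha, ham⟩ := hcong ℓ hℓ hℓT hgood hℓL hℓp
      exact ⟨a, ha, Ideal.Quotient.eq.2 ham⟩) ρ hρ
  obtain ⟨ε, hε, hch⟩ := hmult q hq hqp hqL hq2 A hA σ hσ
  rw [Density.residual_charpoly_eq_of_isEquiv he, RT.charpoly_baseChangeAlong] at hch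
  obtain ⟨e, he1, hee⟩ : ∃ e : ZMod p, e * e = 1 ∧ ε = ι e := by
    rcases mul_self_eq_one_iff.1 hε with rfl | rfl
    · exact ⟨1, one_mul 1, (map_one ι).symm⟩
    · exact ⟨-1, by simp, by simp⟩
  refine ⟨e, he1, Polynomial.map_injective ι ι.injective (hch.trans ?_)⟩
  simp [hee, Polynomial.map_natCast]

/-- A newform system reducing to that of `W` gives a congruence of `q`-coefficients. -/
theorem exists_congruence_of_isNewformSystem {V : Type} [CommRing V] [IsLocalRing V]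
    (hpV : (p : V) ∈ maximalIdeal V) {S : Finset ℕ} {L : ℕ} [NeZero L] {c : Nat.Primes → V}
    (hLS : ∀ ℓ : ℕ, ℓ.Prime → ℓ ∣ L → ℓ ∈ S)
    (hc : RT.Assembly.IsNewformSystem S L c)
    (hres : ∀ ℓ : Nat.Primes, (ℓ : ℕ) ∉ S →
      residue V (c ℓ) = residualSystem W (ResidueField V) ℓ) :
    ∃ (g : CuspForm (CongruenceSubgroup.Gamma0 L) 2) (𝔪 : Ideal (integralClosure ℤ ℂ)),
      g.IsNewform ∧ 𝔪.IsMaximal ∧ (p : integralClosure ℤ ℂ) ∈ 𝔪 ∧
      ∀ ℓ : ℕ, ℓ.Prime → ℓ ∉ S → ∃ a : integralClosure ℤ ℂ, (a : ℂ) = qCoeff g ℓ ∧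
        a - ((W.apOfModel ℓ : ℤ) : integralClosure ℤ ℂ) ∈ 𝔪 := by
  obtain ⟨g, chig, emb, hg, hT, hemb⟩ := hc
  haveI := HeckeFinite.moduleFinite_heckeAlgebra L 2 (↑S : Set ℕ)
  haveI : Module.Finite ℤ chig.range :=
    Module.Finite.of_surjective chig.rangeRestrict.toIntAlgHom.toLinearMap
      chig.rangeRestrict_surjective
  haveI : Algebra.IsIntegral ℤ chig.range := Algebra.IsIntegral.of_finite ℤ _
  let j : chig.range →ₐ[ℤ] integralClosure ℤ ℂ :=
    chig.range.subtype.toIntAlgHom.codRestrict _ fun x =>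
      (Algebra.IsIntegral.isIntegral x).map chig.range.subtype.toIntAlgHom
  let P : Ideal chig.range := RingHom.ker ((residue V).comp emb)
  haveI : P.IsPrime := RingHom.ker_isPrime _
  have hpP : (p : chig.range) ∈ P := by
    show (residue V).comp emb (p : chig.range) = 0
    rw [RingHom.comp_apply, map_natCast, residue_eq_zero_iff]
    exact hpV
  have hPmax : P.IsMaximal := by
    refine Ideal.isMaximal_of_isIntegral_of_isMaximal_comap (R := ℤ) P ?_
    have hne : P.comap (algebraMap ℤ chig.range) ≠ ⊥ := by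
      intro h
      have hpz : ((p : ℤ)) ∈ P.comap (algebraMap ℤ chig.range) := by
        rw [Ideal.mem_comap, map_natCast]
        exact hpP
      rw [h, Ideal.mem_bot] at hpz
      exact hp.out.ne_zero (by exact_mod_cast hpz)
    exact (Ideal.IsPrime.comap (algebraMap ℤ chig.range)).isMaximal hne
  letI : Algebra chig.range (integralClosure ℤ ℂ) := j.toRingHom.toAlgebra
  haveI : IsScalarTower ℤ chig.range (integralClosure ℤ ℂ) := IsScalarTower.of_algHom j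
  haveI : Algebra.IsIntegral chig.range (integralClosure ℤ ℂ) :=
    ⟨fun a => (Algebra.IsIntegral.isIntegral (R := ℤ) a).tower_top⟩
  have hker : RingHom.ker (algebraMap chig.range (integralClosure ℤ ℂ)) ≤ P := fun x hx => by
    have h0 := congrArg (fun y : integralClosure ℤ ℂ => (y : ℂ)) (RingHom.mem_ker.1 hx)
    have hx0 : x = 0 := Subtype.ext h0
    rw [hx0]
    exact P.zero_mem
  obtain ⟨𝔪, hm, hmP⟩ := Ideal.exists_ideal_over_maximal_of_isIntegral P hker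
  have hmem : ∀ x : chig.range, x ∈ P → j x ∈ 𝔪 := fun x hx => by
    rw [← hmP] at hx
    exact hx
  refine ⟨g, 𝔪, hg, hm, ?_, fun ℓ hℓ hℓS => ?_⟩
  · simpa using hmem _ hpP
  have hℓL : ¬ ℓ ∣ L := fun hd => hℓS (hLS ℓ hℓ hd)
  have hℓS' : ℓ ∉ (↑S : Set ℕ) := by simpa using hℓS
  refine ⟨j (chig.rangeRestrict (CuspForm.heckeAlgebra.T hℓ hℓL hℓS')), hT ℓ hℓ hℓL hℓS', ?_⟩
  have h1 : chig.rangeRestrict (CuspForm.heckeAlgebra.T hℓ hℓL hℓS') -
      ((W.apOfModel ℓ : ℤ) : chig.range) ∈ P := by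
    show (residue V).comp emb _ = 0
    rw [map_sub, map_intCast, RingHom.comp_apply, hemb ℓ hℓ hℓL hℓS', hres ⟨ℓ, hℓ⟩ hℓS,
      residualSystem, sub_self]
  simpa using hmem _ h1

/-- **`Base.minimal`.** -/
theorem IsMinimalResidualLevel.dvd_of_isNewformSystem (hS29 : RT.EigenformResidualRep)
    (h35 : BadPrime.NewformMultRep) (hΔ : W.Δ ≠ 0) (hM : IsMinimalResidualLevel W p M)
    (hp2 : p ≠ 2) (hirr : W.ModRepIsIrreducible p) {r : ℕ} (hsf : Squarefree (M * r))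
    (hr : ∀ q : ℕ, q.Prime → q ∣ r → q ≠ p ∧ W.IsGoodPrimeFor q ∧
      (W.apOfModel q : ZMod p) ^ 2 ≠ ((q : ZMod p) + 1) ^ 2)
    {V : Type} [CommRing V] [IsLocalRing V] (hpV : (p : V) ∈ maximalIdeal V)
    {S : Finset ℕ} {L : ℕ} [NeZero L] {c : Nat.Primes → V}
    (hLS : ∀ ℓ : ℕ, ℓ.Prime → ℓ ∣ L → ℓ ∈ S) (hL : L ∣ M * r)
    (hc : RT.Assembly.IsNewformSystem S L c)
    (hres : ∀ ℓ : Nat.Primes, (ℓ : ℕ) ∉ S →
      residue V (c ℓ) = residualSystem W (ResidueField V) ℓ) : M ∣ L := by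
  obtain ⟨g, 𝔪, hg, hmax, hpm, hcong⟩ := exists_congruence_of_isNewformSystem hpV hLS hc hres
  have hL0 : 0 < L := Nat.pos_of_ne_zero (NeZero.ne L)
  have hmod : W.IsResiduallyModularOfLevel p L :=
    RT.isResiduallyModularOfLevel_of_cofinite hS29 RT.torsionFrobeniusCharpoly hΔ hp.out hL0 hg.1
      hmax hpm S hcong
  have hcop : L.Coprime r := by
    refine Nat.coprime_of_dvd fun q hq hqL hqr => ?_
    obtain ⟨hqp, hgood, hne⟩ := hr q hq hqr
    have hq2 : ¬ q ^ 2 ∣ L := fun h => by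
      rw [pow_two] at h
      exact hq.ne_one (Nat.isUnit_iff.1 (hsf q (h.trans hL)))
    obtain ⟨A, σ, hA, hσ⟩ := Galois.exists_valuationSubring_isFrobeniusAt hq
    obtain ⟨ε, hε, hch⟩ := frobenius_charpoly_of_congruent h35 hΔ hp2 hirr hg hmax hpm S
      (fun ℓ hℓ hℓS _ _ _ => hcong ℓ hℓ hℓS) hq hqp hqL hq2 A hA σ hσ
    have hch' : LinearMap.charpoly ((Residual.torsRep W p hΔ).ρ σ) =
        X ^ 2 - C (W.apOfModel q : ZMod p) * X + C (q : ZMod p) :=
      EC.charpoly_residualGaloisRepOf W hq hA hgood hσ hqp _ _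
    have h1 := congrArg (fun f => Polynomial.coeff f 1) (hch.symm.trans hch')
    have h2 : ε * ((q : ZMod p) + 1) = (W.apOfModel q : ZMod p) := by
      simpa [Polynomial.coeff_X_pow, Polynomial.coeff_X, Polynomial.coeff_C] using h1
    exact hne (by rw [← h2, mul_pow, pow_two ε, hε, one_mul])
  exact (hM.minimal L (hcop.dvd_of_dvd_mul_right hL) hmod).symm.dvd

end Fermat.Agent.Lifting.Minimal

end
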