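import Fermat.Agent.Lifting.Minimal.Newform
import Fermat.Agent.Lifting.Residual.FrameUnramified
import Fermat.Agent.Lifting.Residual.AuxPrime
import Fermat.Agent.RT.FreyFlatAtP
import Fermat.Agent.RT.FreyLocalAtP
import Fermat.Agent.EC.Flat.Torsion

/-!
# Local facts about `W[p]` of a semistable curve

* at `q ≠ p`: unipotent inertia, the tame relation, and a basis in normal form (steinberg when
  ramified, scalar or Jordan when unramified with a double Frobenius eigenvalue);
* at `p`: flat for good reduction, strictly ordinary for multiplicative reduction.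
-/

set_option autoImplicit false
set_option linter.style.haveILetI false

noncomputable section

open scoped WeierstrassCurve.Affine TensorProduct
open Polynomial
open Fermat.Agent.Deformation (matOf matOf_apply matOf_baseChange)

namespace Fermat.Agent.Lifting.Minimal

local notation "ℚ̄" => AlgebraicClosure ℚ
local notation "Γℚ" => (AlgebraicClosure ℚ ≃ₐ[ℚ] AlgebraicClosure ℚ)

/-- A basis adapted to a non-zero square-zero endomorphism of a plane. -/
theorem exists_basis_of_sq_eq_zero {k V : Type*} [Field k] [AddCommGroup V] [Module k V]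
    (hV : Module.finrank k V = 2) {N : Module.End k V} (h2 : N * N = 0) (hN : N ≠ 0) :
    ∃ b : Module.Basis (Fin 2) k V, N (b 0) = 0 ∧ N (b 1) = b 0 := by
  obtain ⟨v, hv⟩ : ∃ v, N v ≠ 0 := by
    by_contra! h
    exact hN (LinearMap.ext h)
  have hNN : ∀ x, N (N x) = 0 := fun x => LinearMap.congr_fun h2 x
  have hli : LinearIndependent k ![N v, v] := LinearIndependent.pair_iff.2 fun s t hst => by
    have h := congrArg N hst
    rw [map_add, map_smul, map_smul, hNN, smul_zero, zero_add, map_zero, smul_eq_zero] at h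
    have ht := h.resolve_right hv
    subst ht
    rw [zero_smul, add_zero, smul_eq_zero] at hst
    exact ⟨hst.resolve_right hv, rfl⟩
  exact ⟨basisOfLinearIndependentOfCardEqFinrank hli (by simp [hV]), by simp [hNN], by simp⟩

variable {W : WeierstrassCurve ℤ} {p : ℕ} [hp : Fact p.Prime] (hΔ : W.Δ ≠ 0)

/-- Inertia at `q ≠ p` is unipotent on `W[p]`. -/
theorem torsRep_inertia_sub_one_sq (hss : W.IsSemistableModel) {q : ℕ} (hq : q.Prime)
    (hqp : q ≠ p) {A : ValuationSubring ℚ̄} (hA : A.LiesOverPrime q) {τ : Γℚ}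
    (hτ : τ ∈ A.inertiaSubgroupIn ℚ) :
    ((Residual.torsRep W p hΔ).ρ τ - 1) * ((Residual.torsRep W p hΔ).ρ τ - 1) = 0 := by
  haveI := EC.Reducible.isElliptic_rat W hΔ
  have hn : ¬ q ∣ p := fun h => hqp ((Nat.prime_dvd_prime_iff_eq hq hp.out).1 h)
  have h : (Residual.rep W p τ - 1) * (Residual.rep W p τ - 1) = 0 := LinearMap.ext fun x => by
    show τ • (τ • x - x) - (τ • x - x) = 0
    exact sub_eq_zero.mpr (Subtype.ext (EC.Reducible.inertia_smul_sub_fixed W hΔ hq (hss q hq)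
      A hA hn hτ hτ (EC.Reducible.nsmul_coe_eq_zero x)))
  exact h

/-- Inertia at `q ≠ p` acts through a `p`-group on `W[p]`. -/
theorem torsRep_inertia_pow (hss : W.IsSemistableModel) {q : ℕ} (hq : q.Prime) (hqp : q ≠ p)
    {A : ValuationSubring ℚ̄} (hA : A.LiesOverPrime q) {τ : Γℚ}
    (hτ : τ ∈ A.inertiaSubgroupIn ℚ) : (Residual.torsRep W p hΔ).ρ τ ^ p = 1 := by
  set ρ := Residual.torsRep W p hΔ
  haveI : Nontrivial ρ.V := Module.nontrivial_of_finrank_eq_succ ρ.finrank_eq
  have : CharP (Module.End (ZMod p) ρ.V) p :=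
    charP_of_injective_algebraMap (algebraMap (ZMod p) (Module.End (ZMod p) ρ.V)).injective p
  rw [← sub_eq_zero, ← one_pow p, ← sub_pow_char_of_commute p (Commute.one_right _)]
  exact pow_eq_zero_of_le hp.out.two_le
    (by rw [pow_two]; exact torsRep_inertia_sub_one_sq hΔ hss hq hqp hA hτ)

theorem torsRep_isTameAt (hss : W.IsSemistableModel) {q : ℕ} (hq : q.Prime) (hqp : q ≠ p)
    {A : ValuationSubring ℚ̄} (hA : A.LiesOverPrime q) :
    RT.IsTameAt p A (Residual.torsRep W p hΔ).ρ.toHomUnits where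
  finite_level := by
    obtain ⟨L, hL, hfix⟩ := (Residual.torsRep W p hΔ).factorsThroughFiniteLevel
    exact ⟨L, hL, fun τ hτ => Units.ext (by rw [MonoidHom.coe_toHomUnits, hfix τ hτ,
      Units.val_one])⟩
  inertia_pow τ hτ := ⟨1, Units.ext (by rw [Units.val_pow_eq_pow_val, MonoidHom.coe_toHomUnits,
    pow_one, torsRep_inertia_pow hΔ hss hq hqp hA hτ, Units.val_one])⟩

/-- The tame relation on `W[p]`. -/
theorem torsRep_frobenius_mul_tame (hss : W.IsSemistableModel) {q : ℕ} (hq : q.Prime)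
    (hqp : q ≠ p) (T : RT.TamePair p q) :
    (Residual.torsRep W p hΔ).ρ T.F * (Residual.torsRep W p hΔ).ρ T.σ =
      (Residual.torsRep W p hΔ).ρ T.σ ^ q * (Residual.torsRep W p hΔ).ρ T.F := by
  have h := congrArg Units.val
    (T.map_F_mul_σ hp.out hq hqp.symm (torsRep_isTameAt hΔ hss hq hqp T.hA))
  simpa [Units.val_mul, Units.val_pow_eq_pow_val] using h

/-- **Normal form at a ramified `q ≠ p`.** -/
theorem exists_steinberg_basis (hss : W.IsSemistableModel) {q : ℕ} (hq : q.Prime) (hqp : q ≠ p)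
    (hram : ¬ ResiduallyUnramifiedAt W p q) (T : RT.TamePair p q) :
    ∃ (b : Module.Basis (Fin 2) (ZMod p) (Residual.torsRep W p hΔ).V) (β y : ZMod p),
      β * β = 1 ∧
      matOf (Residual.torsRep W p hΔ).ρ b T.F = !![(q : ZMod p) * β, y; 0, β] ∧
      matOf (Residual.torsRep W p hΔ).ρ b T.σ = !![1, 1; 0, 1] := by
  set ρ := Residual.torsRep W p hΔ
  set N := ρ.ρ T.σ - 1 with hNdef
  have h2 : N * N = 0 := torsRep_inertia_sub_one_sq hΔ hss hq hqp T.hA T.hσ
  have hN : N ≠ 0 := fun h => hram ((torsRep_isUnramifiedAt_iff_residual hΔ q).1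
    ((Residual.torsRep_isUnramifiedAt_iff hΔ hss hq hqp T).2 (sub_eq_zero.1 h)))
  obtain ⟨b, hb0, hb1⟩ := exists_basis_of_sq_eq_zero ρ.finrank_eq h2 hN
  have hσ0 : ρ.ρ T.σ (b 0) = b 0 := sub_eq_zero.1 (by simpa [hNdef] using hb0)
  have hσ1 : ρ.ρ T.σ (b 1) = b 0 + b 1 := eq_add_of_sub_eq (by simpa [hNdef] using hb1)
  have hσq : ρ.ρ T.σ ^ q = 1 + (q : ZMod p) • N := by
    have hpow : ∀ n : ℕ, (1 + N) ^ n = 1 + (n : ZMod p) • N := by
      intro n
      induction n with
      | zero => simp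
      | succ n ih =>
        rw [pow_succ, ih, Nat.cast_succ, add_smul, one_smul, mul_add, mul_one, add_mul, one_mul,
          smul_mul_assoc, h2, smul_zero, add_zero]
        abel
    rw [← hpow, hNdef, add_sub_cancel]
  set F := ρ.ρ T.F
  have hq0 : (q : ZMod p) ≠ 0 := fun h =>
    hqp ((Nat.prime_dvd_prime_iff_eq hp.out hq).1 ((ZMod.natCast_eq_zero_iff q p).1 h)).symm
  have hrel : F * N = (q : ZMod p) • (N * F) := by
    have h := torsRep_frobenius_mul_tame hΔ hss hq hqp T
    rw [hσq, show ρ.ρ T.σ = 1 + N by rw [hNdef, add_sub_cancel], mul_add, mul_one, add_mul,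
      one_mul, smul_mul_assoc] at h
    exact add_left_cancel h
  have hrel' : ∀ x, F (N x) = (q : ZMod p) • N (F x) := fun x => LinearMap.congr_fun hrel x
  have hrepr : ∀ x, x = b.repr x 0 • b 0 + b.repr x 1 • b 1 := fun x => by
    conv_lhs => rw [← b.sum_repr x, Fin.sum_univ_two]
  have hNx : ∀ x, N x = b.repr x 1 • b 0 := fun x => by
    conv_lhs => rw [hrepr x]
    rw [map_add, map_smul, map_smul, hb0, hb1, smul_zero, zero_add]
  have hF0 : b.repr (F (b 0)) 1 = 0 := by
    have h := hrel' (b 0)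
    rw [hb0, map_zero, hNx, smul_smul] at h
    exact (mul_eq_zero.1 ((smul_eq_zero.1 h.symm).resolve_right (b.ne_zero 0))).resolve_left hq0
  set a := b.repr (F (b 0)) 0 with hadef
  set d := b.repr (F (b 1)) 1 with hddef
  set y := b.repr (F (b 1)) 0 with hydef
  have had : a = (q : ZMod p) * d := by
    have h := congrArg (fun x => b.repr x 0) (hrel' (b 1))
    rw [hb1, hNx] at h
    simpa [hadef, hddef] using h
  have hmat : matOf ρ.ρ b T.F = !![(q : ZMod p) * d, y; 0, d] := by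
    rw [matOf_apply]
    ext i j
    fin_cases i <;> fin_cases j <;> simp [LinearMap.toMatrix_apply] <;>
      first | exact had | exact hF0 | rfl
  have hdet : LinearMap.det F = (q : ZMod p) := Residual.det_torsRep_frobenius hΔ hq hqp T.hA T.hF
  have hdd : d * d = 1 := by
    have h : (matOf ρ.ρ b T.F).det = (q : ZMod p) := by
      rw [matOf_apply, LinearMap.det_toMatrix]
      exact hdet
    rw [hmat, Matrix.det_fin_two] at h
    simp only [Matrix.of_apply, Matrix.cons_val', Matrix.cons_val_zero, Matrix.cons_val_one,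
      Matrix.cons_val_fin_one, mul_zero, sub_zero] at h
    exact mul_left_cancel₀ hq0 (by rw [← mul_assoc, h, mul_one])
  refine ⟨b, d, y, hdd, hmat, ?_⟩
  rw [matOf_apply]
  ext i j
  fin_cases i <;> fin_cases j <;> simp [LinearMap.toMatrix_apply, hσ0, hσ1]

/-- **Normal form at an unramified place with a double Frobenius eigenvalue.** -/
theorem exists_twisted_basis {q : ℕ} (hunr : ResiduallyUnramifiedAt W p q) (T : RT.TamePair p q)
    {ε : ZMod p}
    (hch : LinearMap.charpoly ((Residual.torsRep W p hΔ).ρ T.F) = (X - C ε) ^ 2) :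
    ∃ b : Module.Basis (Fin 2) (ZMod p) (Residual.torsRep W p hΔ).V,
      matOf (Residual.torsRep W p hΔ).ρ b T.σ = 1 ∧
      (matOf (Residual.torsRep W p hΔ).ρ b T.F = ε • 1 ∨
        matOf (Residual.torsRep W p hΔ).ρ b T.F = !![ε, 1; 0, ε]) := by
  set ρ := Residual.torsRep W p hΔ
  haveI : Module.Finite (ZMod p) ρ.V := Module.finite_of_finrank_eq_succ ρ.finrank_eq
  have hσ : ρ.ρ T.σ = 1 :=
    (torsRep_isUnramifiedAt_iff_residual hΔ q).2 hunr T.A T.hA T.σ T.hσ
  have hσm : ∀ b : Module.Basis (Fin 2) (ZMod p) ρ.V, matOf ρ.ρ b T.σ = 1 := fun b =>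
    (RT.matOf_eq_one_iff ρ.ρ b T.σ).2 hσ
  set N := ρ.ρ T.F - algebraMap (ZMod p) (Module.End (ZMod p) ρ.V) ε with hNdef
  have h2 : N * N = 0 := by
    have h := LinearMap.aeval_self_charpoly (ρ.ρ T.F)
    rw [hch, map_pow, map_sub, aeval_X, aeval_C, pow_two] at h
    exact h
  by_cases hN : N = 0
  · let b := Module.finBasisOfFinrankEq (ZMod p) ρ.V ρ.finrank_eq
    refine ⟨b, hσm b, Or.inl ?_⟩
    rw [matOf_apply, sub_eq_zero.1 hN]
    simp [Algebra.algebraMap_eq_smul_one]
  · obtain ⟨b, hb0, hb1⟩ := exists_basis_of_sq_eq_zero ρ.finrank_eq h2 hN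
    have hF0 : ρ.ρ T.F (b 0) = ε • b 0 :=
      sub_eq_zero.1 (by simpa [hNdef, Algebra.algebraMap_eq_smul_one] using hb0)
    have hF1 : ρ.ρ T.F (b 1) = b 0 + ε • b 1 :=
      eq_add_of_sub_eq (by simpa [hNdef, Algebra.algebraMap_eq_smul_one] using hb1)
    refine ⟨b, hσm b, Or.inr ?_⟩
    rw [matOf_apply]
    ext i j
    fin_cases i <;> fin_cases j <;> simp [LinearMap.toMatrix_apply, hF0, hF1]

/-! ### Over a coefficient field -/

variable {k : Type} [Field k] (ι : ZMod p →+* k)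

/-- The base-changed basis and matrices. -/
theorem exists_basis_baseChange (b : Module.Basis (Fin 2) (ZMod p) (Residual.torsRep W p hΔ).V) :
    ∃ b' : Module.Basis (Fin 2) k ((Residual.torsRep W p hΔ).baseChangeAlong ι).V, ∀ σ : Γℚ,
      matOf ((Residual.torsRep W p hΔ).baseChangeAlong ι).ρ b' σ =
        (matOf (Residual.torsRep W p hΔ).ρ b σ).map ι := by
  letI : Algebra (ZMod p) k := ι.toAlgebra
  exact ⟨Algebra.TensorProduct.basis k b, fun σ =>
    matOf_baseChange k _ b ((Residual.torsRep W p hΔ).baseChangeAlong ι).ρ (fun _ => rfl) σ⟩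

theorem torsRep_baseChange_inertia_pow (hss : W.IsSemistableModel) {q : ℕ} (hq : q.Prime)
    (hqp : q ≠ p) {A : ValuationSubring ℚ̄} (hA : A.LiesOverPrime q) {τ : Γℚ}
    (hτ : τ ∈ A.inertiaSubgroupIn ℚ) :
    ((Residual.torsRep W p hΔ).baseChangeAlong ι).ρ τ ^ p ^ 1 = 1 :=
  RT.pow_eq_one_of_baseChangeAlong ι _
    (by rw [pow_one]; exact torsRep_inertia_pow hΔ hss hq hqp hA hτ)

theorem torsRep_baseChange_isUnramifiedAt {q : ℕ} (h : ResiduallyUnramifiedAt W p q) :
    ((Residual.torsRep W p hΔ).baseChangeAlong ι).IsUnramifiedAt q := by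
  intro A hA σ hσ
  have h1 := RT.pow_eq_one_of_baseChangeAlong ι _ (n := 1)
    (by rw [pow_one]; exact (torsRep_isUnramifiedAt_iff_residual hΔ q).2 h A hA σ hσ)
  rwa [pow_one] at h1

theorem torsRep_baseChange_isFlatAt [Finite k] (hgood : W.IsGoodPrimeFor p) :
    (GaloisRepAdic.ofResidualGaloisRep
      ((Residual.torsRep W p hΔ).baseChangeAlong ι)).IsFlatAt p :=
  haveI := EC.Reducible.isElliptic_rat W hΔ
  RT.baseChangeAlong_isFlatAt (W.map (Int.castRingHom ℚ)) p ι
    fun N hN => EC.exists_hopf_torsion W hgood N hN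

/-- Strict ordinarity at a multiplicative `p`. -/
theorem torsRep_baseChange_isStrictOrdinaryAt (hss : W.IsSemistableModel)
    (hbad : (p : ℤ) ∣ W.Δ) :
    (GaloisRepAdic.ofResidualGaloisRep
      ((Residual.torsRep W p hΔ).baseChangeAlong ι)).IsStrictOrdinaryAt p := by
  haveI : NeZero p := ⟨hp.out.ne_zero⟩
  haveI := EC.Reducible.isElliptic_rat W hΔ
  set ρ := Residual.torsRep W p hΔ with hρ
  have hp0 : (p : k) = 0 := by rw [← map_natCast ι, ZMod.natCast_self, map_zero]
  refine ⟨by rw [hp0]; exact Submodule.zero_mem _, fun A hA => ?_⟩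
  obtain ⟨N, hN, hD, hI, hZ⟩ := EC.Mult.exists_decomposition_line (W := W)
    (p := p) (A := A) hp.out hA hΔ hbad (hss p hp.out hbad) hp.out
  obtain ⟨b, hb⟩ := RT.exists_basis_of_natCard_eq (p := p) (V := ρ.V) ρ.finrank_eq N hN
  letI : Algebra (ZMod p) k := ι.toAlgebra
  let R : Γℚ → Module.End k (k ⊗[ZMod p] ρ.V) := fun σ => (ρ.ρ σ).baseChange k
  have hRapp : ∀ σ (c : k) (v : ρ.V),
      R σ (c ⊗ₜ[ZMod p] v) = c ⊗ₜ[ZMod p] ρ.ρ σ v := fun σ c v =>
    LinearMap.baseChange_tmul ..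
  let B := Algebra.TensorProduct.basis k b
  have hB : ∀ i, B i = (1 : k) ⊗ₜ[ZMod p] b i := fun i => Algebra.TensorProduct.basis_apply b i
  have hmem : ∀ (c : k) (v : ρ.V), v ∈ N → c ⊗ₜ[ZMod p] v ∈ k ∙ B 0 := by
    intro c v hv
    rw [hb] at hv
    obtain ⟨d, rfl⟩ := Submodule.mem_span_singleton.1 hv
    refine Submodule.mem_span_singleton.2 ⟨c * algebraMap (ZMod p) k d, ?_⟩
    rw [hB, TensorProduct.smul_tmul', smul_eq_mul, mul_one, TensorProduct.tmul_smul,
      TensorProduct.smul_tmul', Algebra.smul_def, mul_comm]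
  have hsub : ∀ (σ : Γℚ) (z : ZMod p), (∀ v, ρ.ρ σ v - z • v ∈ N) →
      ∀ v, R σ v - algebraMap (ZMod p) k z • v ∈ k ∙ B 0 := by
    intro σ z hz v
    induction v using TensorProduct.induction_on with
    | zero => rw [LinearMap.map_zero, smul_zero, sub_zero]; exact Submodule.zero_mem _
    | tmul c v =>
      have e : c ⊗ₜ[ZMod p] ρ.ρ σ v - algebraMap (ZMod p) k z • (c ⊗ₜ[ZMod p] v)
          = c ⊗ₜ[ZMod p] (ρ.ρ σ v - z • v) := by
        rw [algebraMap_smul, TensorProduct.tmul_sub, TensorProduct.tmul_smul]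
      rw [hRapp]
      exact e ▸ hmem c _ (hz v)
    | add x y hx hy => rw [map_add, smul_add, add_sub_add_comm]; exact add_mem hx hy
  have hb0N : b 0 ∈ N := hb ▸ Submodule.mem_span_singleton_self _
  have hstab : ∀ σ ∈ A.decompositionSubgroup ℚ, ∀ v ∈ k ∙ B 0, R σ v ∈ k ∙ B 0 := by
    intro σ hσ v hv
    obtain ⟨c, rfl⟩ := Submodule.mem_span_singleton.1 hv
    rw [map_smul]
    refine Submodule.smul_mem _ _ ?_
    have h1 : R σ (B 0) = (1 : k) ⊗ₜ[ZMod p] ρ.ρ σ (b 0) := by rw [hB 0, hRapp]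
    exact h1 ▸ hmem 1 _ (hD σ hσ _ hb0N)
  refine ⟨k ∙ B 0, ⟨B, rfl⟩, hstab, fun σ hσ v => ?_, fun σ hσ => ?_⟩
  · have h := hsub σ 1 (fun w => by rw [one_smul]; exact hI σ hσ w) v
    rwa [map_one, one_smul] at h
  · obtain ⟨z, hz1, hz⟩ := hZ σ hσ
    have hz' : ∀ v, ρ.ρ σ v - (z : ZMod p) • v ∈ N := fun v => by
      rw [Int.cast_smul_eq_zsmul]; exact hz v
    obtain ⟨x, hx⟩ : ∃ x : ZMod p, ρ.ρ σ (b 0) = x • b 0 := by
      have h : ρ.ρ σ (b 0) ∈ N := hD σ hσ _ hb0N
      rw [hb] at h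
      obtain ⟨x, hx⟩ := Submodule.mem_span_singleton.1 h
      exact ⟨x, hx.symm⟩
    have hdet : LinearMap.det (ρ.ρ σ) = x * (z : ZMod p) := by
      have h1 := hz' (b 1)
      rw [hb] at h1
      obtain ⟨d, hd⟩ := Submodule.mem_span_singleton.1 h1
      have e : ρ.ρ σ (b 1) = d • b 0 + (z : ZMod p) • b 1 := by rw [hd, sub_add_cancel]
      rw [← LinearMap.det_toMatrix b, Matrix.det_fin_two]
      simp [LinearMap.toMatrix_apply, hx, e]
    refine ⟨algebraMap (ZMod p) k x, algebraMap (ZMod p) k (z : ZMod p), fun w hw => ?_,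
      fun v => hsub σ _ hz' v, fun n a ha => ?_⟩
    · obtain ⟨c, rfl⟩ := Submodule.mem_span_singleton.1 hw
      show R σ (c • B 0) = _ • c • B 0
      rw [map_smul, hB, hRapp, hx, TensorProduct.tmul_smul, ← algebraMap_smul k x, smul_comm]
      rfl
    · rcases Nat.eq_zero_or_pos n with rfl | hn
      · simp
      obtain ⟨ζ, hζ⟩ := EC.exists_primitiveRoot_qbar p
      have hc := EC.cycloChar_eq_of_apply_eq_pow p σ hζ (ha ζ (by
        obtain ⟨m, hm⟩ := dvd_pow_self p hn.ne'
        rw [hm, pow_mul, hζ.pow_eq_one, one_pow]))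
      have hx' : x = (a : ZMod p) * (z : ZMod p) := by
        have h := hdet.symm.trans ((Residual.torsRep_det hΔ σ).trans hc)
        have hzz : ((z : ZMod p)) * z = 1 := by
          exact_mod_cast congrArg (Int.cast : ℤ → ZMod p) hz1
        linear_combination (z : ZMod p) * h - x * hzz
      rw [hx', map_mul, map_natCast, sub_self]
      exact Submodule.zero_mem _

end Fermat.Agent.Lifting.Minimal

end
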