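import Fermat.Agent.Lifting.Minimal.Local
import Fermat.Agent.Density.FrobeniusDensity
import Fermat.Agent.ClassField.Idele.Cyclotomic.Auxiliary

/-!
# The auxiliary prime `r ≡ 11 (mod 12)` at `p = 3`

If `W[3]` is irreducible and ramified at some prime `≠ 3`, a good prime `r ≡ 11 (mod 12)` has
`a_r ≢ 0 (mod 3)`, so `a_r² ≢ (r + 1)²`.
-/

set_option autoImplicit false
set_option linter.style.haveILetI false

noncomputable section

open Matrix
open Fermat.Agent.Deformation (matOf matOf_apply)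

namespace Fermat.Agent.Lifting.Minimal

local notation "ℚ̄" => AlgebraicClosure ℚ
local notation "Γℚ" => (AlgebraicClosure ℚ ≃ₐ[ℚ] AlgebraicClosure ℚ)

/-- No trace-zero matrix of determinant `-1` is orthogonal to a non-trivial unipotent and enough
of its conjugates. -/
theorem false_of_trace_eq_zero {k : Type} [Field k] (h2 : (2 : k) ≠ 0)
    {X F G : Matrix (Fin 2) (Fin 2) k} (hX : X.det = -1) (hGF : G * F = 1) (hF : F 1 0 ≠ 0)
    (h0 : X.trace = 0) (h1 : (X * !![1, 1; 0, 1]).trace = 0)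
    (h3 : (X * (F * !![1, 1; 0, 1] * G)).trace = 0)
    (h4 : (X * (!![1, 1; 0, 1] * (F * !![1, 1; 0, 1] * G) * !![1, -1; 0, 1])).trace = 0) :
    False := by
  have e00 := congrFun (congrFun hGF 0) 0
  have e01 := congrFun (congrFun hGF 0) 1
  have e10 := congrFun (congrFun hGF 1) 0
  have e11 := congrFun (congrFun hGF 1) 1
  have hFG := mul_eq_one_comm.1 hGF
  have f00 := congrFun (congrFun hFG 0) 0
  have f01 := congrFun (congrFun hFG 0) 1
  have f10 := congrFun (congrFun hFG 1) 0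
  have f11 := congrFun (congrFun hFG 1) 1
  simp [Matrix.mul_apply, Fin.sum_univ_two] at e00 e01 e10 e11 f00 f01 f10 f11
  rw [Matrix.det_fin_two] at hX
  simp [Matrix.trace_fin_two, Matrix.mul_apply, Fin.sum_univ_two, Matrix.vecMul, Matrix.vecHead,
    Matrix.vecTail] at h0 h1 h3 h4
  set a := F 0 0
  set c := F 1 0
  set d := F 1 1
  set e := F 0 1
  set g := G 1 0
  set h := G 1 1
  set x := X 0 0
  set y := X 0 1
  have hy10 : X 1 0 = 0 := by linear_combination h1 - h0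
  have hx11 : X 1 1 = -x := by linear_combination h0
  rw [hy10, hx11] at h3 h4 hX
  have hg : g ≠ 0 := by
    intro hg
    rw [hg] at e10 e11
    have hh : h = 0 := by
      have : h * c = 0 := by linear_combination e10
      exact (mul_eq_zero.1 this).resolve_right hF
    rw [hh] at e11
    simp at e11
  have key : g * (2 * x * a + y * c) = 0 := by
    linear_combination h3 - x * f00 - y * f10 + x * f11 + x * e10
  have key' : g * (2 * x * a + y * c) + 2 * g * x * c = 0 := by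
    linear_combination h4 - x * f00 - 2 * x * f10 - y * f10 + x * f11 + x * e10
  have hx : x = 0 := by
    have : (2 : k) * g * x * c = 0 := by linear_combination key' - key
    rcases mul_eq_zero.1 this with h' | h'
    · exact (mul_eq_zero.1 h').resolve_left (mul_ne_zero h2 hg)
    · exact absurd h' hF
  rw [hx] at hX
  simp at hX

variable {W : WeierstrassCurve ℤ} (hΔ : W.Δ ≠ 0)

theorem cycloChar_twelve_three (σ : Γℚ) :
    (EC.cycloChar 3 σ : ZMod 3) = ZMod.castHom (by norm_num : 3 ∣ 12) (ZMod 3)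
      (EC.cycloChar 12 σ : ZMod 12) := by
  obtain ⟨ζ, hζ⟩ := EC.exists_primitiveRoot_qbar 3
  have h12 : ζ ^ 12 = 1 := by
    rw [show (12 : ℕ) = 3 * 4 from rfl, pow_mul, hζ.pow_eq_one, one_pow]
  have h := EC.apply_eq_pow_cycloChar 12 σ h12
  rw [EC.cycloChar_eq_of_apply_eq_pow 3 σ hζ h, ZMod.castHom_apply, ZMod.natCast_val]

include hΔ in
/-- Some element with cyclotomic character `-1` modulo `12` has non-zero trace on `W[3]`. -/
theorem exists_trace_ne_zero_twelve [Fact (Nat.Prime 3)] (hss : W.IsSemistableModel)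
    (hirr : W.ModRepIsIrreducible 3)
    (hram : ∃ q : ℕ, q.Prime ∧ q ≠ 3 ∧ ¬ ResiduallyUnramifiedAt W 3 q) :
    ∃ g : Γℚ, (EC.cycloChar 12 g : ZMod 12) = -1 ∧
      LinearMap.trace (ZMod 3) _ ((Residual.torsRep W 3 hΔ).ρ g) ≠ 0 := by
  obtain ⟨q, hq, hq3, hnu⟩ := hram
  set ρ := Residual.torsRep W 3 hΔ with hρ
  rw [← torsRep_isUnramifiedAt_iff_residual hΔ] at hnu
  obtain ⟨A, hA, τ, hτ, hτ1⟩ : ∃ A : ValuationSubring ℚ̄, A.LiesOverPrime q ∧
      ∃ τ ∈ A.inertiaSubgroupIn ℚ, ρ.ρ τ ≠ 1 := by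
    by_contra! hall
    exact hnu fun A hA σ hσ => hall A hA σ hσ
  set u := τ ^ 4 with hu
  have hρu : ρ.ρ u = ρ.ρ τ := by
    rw [hu, map_pow, show (4 : ℕ) = 3 + 1 from rfl, pow_succ,
      torsRep_inertia_pow hΔ hss hq hq3 hA hτ, one_mul]
  have hχu : EC.cycloChar 12 u = 1 := by
    rw [hu, map_pow]
    exact (by decide : ∀ z : (ZMod 12)ˣ, z ^ 4 = 1) _
  obtain ⟨b, hb0, hb1⟩ := exists_basis_of_sq_eq_zero ρ.finrank_eq
    (torsRep_inertia_sub_one_sq hΔ hss hq hq3 hA hτ) (sub_ne_zero.2 hτ1)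
  have hU : matOf ρ.ρ b u = !![1, 1; 0, 1] := by
    have h0 : ρ.ρ τ (b 0) = b 0 := sub_eq_zero.1 (by simpa using hb0)
    have h1 : ρ.ρ τ (b 1) = b 0 + b 1 := eq_add_of_sub_eq (by simpa using hb1)
    rw [matOf_apply, hρu]
    ext i j
    fin_cases i <;> fin_cases j <;> simp [LinearMap.toMatrix_apply, h0, h1]
  have hU' : matOf ρ.ρ b u⁻¹ = !![1, -1; 0, 1] := by
    have h1 : matOf ρ.ρ b u⁻¹ * matOf ρ.ρ b u = 1 := by rw [← map_mul, inv_mul_cancel, map_one]
    rw [hU] at h1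
    calc matOf ρ.ρ b u⁻¹ = matOf ρ.ρ b u⁻¹ * (!![1, 1; 0, 1] * !![1, -1; 0, 1]) := by
          rw [show (!![1, 1; 0, 1] * !![1, -1; 0, 1] : Matrix (Fin 2) (Fin 2) (ZMod 3)) = 1 by
            simp [Matrix.one_fin_two], mul_one]
      _ = _ := by rw [← mul_assoc, h1, one_mul]
  obtain ⟨a, ha⟩ : ∃ a : Γℚ, matOf ρ.ρ b a 1 0 ≠ 0 := by
    by_contra! hall
    have hne : (ZMod 3 ∙ b 0) ≠ ⊤ := fun h => by
      have hm : b 1 ∈ (ZMod 3 ∙ b 0) := h ▸ Submodule.mem_top
      obtain ⟨r, hr⟩ := Submodule.mem_span_singleton.1 hm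
      simpa using congrArg (fun v => b.repr v 1) hr
    refine hne (((Residual.torsRep_isIrreducible hΔ hirr) _ fun σ x hx => ?_).resolve_left
      fun h => b.ne_zero 0 ?_)
    · obtain ⟨r, rfl⟩ := Submodule.mem_span_singleton.1 hx
      have hs : b.repr (ρ.ρ σ (b 0)) 1 = 0 := by
        simpa [matOf_apply, LinearMap.toMatrix_apply] using hall σ
      rw [map_smul]
      refine Submodule.smul_mem _ _ (Submodule.mem_span_singleton.2 ⟨b.repr (ρ.ρ σ (b 0)) 0, ?_⟩)
      conv_rhs => rw [← b.sum_repr (ρ.ρ σ (b 0)), Fin.sum_univ_two, hs, zero_smul, add_zero]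
    · exact (Submodule.mem_bot _).1 (h ▸ Submodule.mem_span_singleton_self (b 0))
  obtain ⟨g, hg⟩ := ClassField.Idele.cycloChar_surjective_of_neZero 12 (-1)
  have hg' : (EC.cycloChar 12 g : ZMod 12) = -1 := by rw [hg]; simp
  have htr : ∀ σ : Γℚ, LinearMap.trace (ZMod 3) _ (ρ.ρ σ) = (matOf ρ.ρ b σ).trace := fun σ => by
    rw [LinearMap.trace_eq_matrix_trace (ZMod 3) b, matOf_apply]
  by_contra! hall
  have hz : ∀ w : Γℚ, EC.cycloChar 12 w = 1 → (matOf ρ.ρ b (g * w)).trace = 0 := fun w hw => by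
    rw [← htr]
    exact hall _ (by rw [map_mul, hw, mul_one, hg'])
  have hconj : EC.cycloChar 12 (a * u * a⁻¹) = 1 := by
    rw [map_mul, map_mul, hχu, mul_one, ← map_mul, mul_inv_cancel, map_one]
  refine false_of_trace_eq_zero (X := matOf ρ.ρ b g) (F := matOf ρ.ρ b a) (G := matOf ρ.ρ b a⁻¹)
    (Residual.two_ne_zero_of_odd (by norm_num)) ?_ (by rw [← map_mul, inv_mul_cancel, map_one]) ha
    (by simpa using hz 1 (map_one _)) ?_ ?_ ?_
  · rw [matOf_apply, LinearMap.det_toMatrix, hρ, Residual.torsRep_det hΔ g, cycloChar_twelve_three,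
      hg', map_neg, map_one]
  · have h := hz u hχu
    rwa [map_mul, hU] at h
  · have h := hz _ hconj
    rwa [map_mul, map_mul, map_mul, hU] at h
  · have h := hz (u * (a * u * a⁻¹) * u⁻¹)
      (by rw [map_mul, map_mul, hconj, mul_one, ← map_mul, mul_inv_cancel, map_one])
    rwa [map_mul, map_mul, map_mul, map_mul, map_mul, hU, hU'] at h

include hΔ in
/-- **The auxiliary prime at `p = 3`.** -/
theorem exists_aux_prime_twelve [Fact (Nat.Prime 3)] (hss : W.IsSemistableModel)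
    (hirr : W.ModRepIsIrreducible 3)
    (hram : ∃ q : ℕ, q.Prime ∧ q ≠ 3 ∧ ¬ ResiduallyUnramifiedAt W 3 q) (S : Finset ℕ) :
    ∃ r : ℕ, r.Prime ∧ r ∉ S ∧ r ≠ 3 ∧ W.IsGoodPrimeFor r ∧ r % 12 = 11 ∧
      (W.apOfModel r : ZMod 3) ^ 2 ≠ ((r : ZMod 3) + 1) ^ 2 := by
  classical
  obtain ⟨g, hg, hgt⟩ := exists_trace_ne_zero_twelve hΔ hss hirr hram
  set ρ := Residual.torsRep W 3 hΔ with hρ
  obtain ⟨L₀, hL₀, hfix⟩ := ρ.factorsThroughFiniteLevel
  obtain ⟨ζ, hζ⟩ := EC.exists_primitiveRoot_qbar 12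
  let L := L₀ ⊔ IntermediateField.adjoin ℚ {ζ}
  have : FiniteDimensional ℚ (IntermediateField.adjoin ℚ ({ζ} : Set ℚ̄)) :=
    IntermediateField.adjoin.finiteDimensional (Algebra.IsIntegral.isIntegral ζ)
  have : FiniteDimensional ℚ L := IntermediateField.finiteDimensional_sup _ _
  obtain ⟨r, hr, hrS, A, σ, hA, hσ, -, a, b, hga, hgb⟩ :=
    Density.exists_isFrobeniusAt_agree_pow L g (S ∪ {2, 3} ∪ W.Δ.natAbs.primeFactors)
  simp only [Finset.mem_union, Finset.mem_insert, Finset.mem_singleton, Nat.mem_primeFactors,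
    not_or] at hrS
  obtain ⟨⟨hS, hr2, hr3⟩, hrΔ⟩ := hrS
  have hgood : W.IsGoodPrimeFor r := fun hd =>
    hrΔ ⟨hr, Int.natCast_dvd.1 hd, Int.natAbs_ne_zero.2 hΔ⟩
  have key : ∀ s t : Γℚ, (∀ x ∈ L, s x = t x) → ρ.ρ s = ρ.ρ t := by
    intro s t hst
    have h1 : ρ.ρ (t⁻¹ * s) = 1 := hfix _ fun x hx => by
      rw [AlgEquiv.mul_apply, hst x ((le_sup_left : L₀ ≤ L) hx), ← AlgEquiv.mul_apply,
        inv_mul_cancel, AlgEquiv.one_apply]
    calc ρ.ρ s = ρ.ρ (t * (t⁻¹ * s)) := by rw [mul_inv_cancel_left]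
      _ = ρ.ρ t := by rw [map_mul, h1, mul_one]
  have keyχ : ∀ s t : Γℚ, (∀ x ∈ L, s x = t x) →
      (EC.cycloChar 12 s : ZMod 12) = EC.cycloChar 12 t := by
    intro s t hst
    have hmem : ζ ∈ L := (le_sup_right : _ ≤ L) (IntermediateField.mem_adjoin_simple_self ℚ ζ)
    have h := EC.cycloChar_eq_of_apply_eq_pow 12 s hζ
      ((hst ζ hmem).trans (EC.apply_eq_pow_cycloChar 12 t hζ.pow_eq_one))
    rw [h, ZMod.natCast_zmod_val]
  -- the exponent `a` is odd and `g` is a power of `σ`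
  have hσg : ρ.ρ σ = ρ.ρ g ^ a := by rw [← map_pow]; exact key _ _ hga
  have hgσ : ρ.ρ g = ρ.ρ σ ^ b := by rw [← map_pow]; exact key _ _ hgb
  have hcσ : (EC.cycloChar 12 σ : ZMod 12) = (-1) ^ a := by
    rw [keyχ _ _ hga, map_pow, Units.val_pow_eq_pow_val, hg]
  have hodd : (-1 : ZMod 12) ^ a = -1 := by
    rcases neg_one_pow_eq_or (ZMod 12) a with h | h
    · exfalso
      have h1 : (EC.cycloChar 12 g : ZMod 12) = 1 := by
        rw [keyχ _ _ hgb, map_pow, Units.val_pow_eq_pow_val, hcσ, h, one_pow]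
      rw [hg] at h1
      exact absurd h1 (by decide)
    · exact h
  rw [hodd] at hcσ
  have hrr : ((r : ℕ) : ZMod 12) = -1 := by
    rw [← hcσ, EC.cycloChar_eq_of_isFrobeniusAt hr (fun h => ?_) hA hσ]
    have h' : r ∣ 2 * 2 * 3 := h
    rcases hr.dvd_mul.1 h' with h' | h'
    · rcases hr.dvd_mul.1 h' with h' | h' <;>
        exact hr2 ((Nat.prime_dvd_prime_iff_eq hr Nat.prime_two).1 h')
    · exact hr3 ((Nat.prime_dvd_prime_iff_eq hr Nat.prime_three).1 h')
  have hr12 : r % 12 = 11 := by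
    have h : ((r : ℕ) : ZMod 12) = ((11 : ℕ) : ZMod 12) := by rw [hrr]; decide
    exact (ZMod.natCast_eq_natCast_iff' r 11 12).1 h
  have hr1 : (r : ZMod 3) = -1 := by
    have h := congrArg (ZMod.castHom (by norm_num : 3 ∣ 12) (ZMod 3)) hrr
    rwa [map_natCast, map_neg, map_one] at h
  have hdσ : LinearMap.det (ρ.ρ σ) = -1 := by
    rw [hρ, Residual.torsRep_det hΔ, cycloChar_twelve_three, hcσ, map_neg, map_one]
  have htσ : LinearMap.trace (ZMod 3) _ (ρ.ρ σ) ≠ 0 := by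
    intro h0
    have h1 : ρ.ρ σ * ρ.ρ σ = 1 := by
      rw [Residual.mul_self_eq_trace_det, h0, hdσ]
      simp
    rcases Nat.even_or_odd' b with ⟨m, rfl | rfl⟩
    · have hd : LinearMap.det (ρ.ρ g) = -1 := by
        rw [hρ, Residual.torsRep_det hΔ, cycloChar_twelve_three, hg, map_neg, map_one]
      rw [hgσ, pow_mul, pow_two, h1, one_pow, map_one] at hd
      exact Residual.two_ne_zero_of_odd (p := 3) (by norm_num) (by linear_combination hd)
    · rw [hgσ, pow_succ, pow_mul, pow_two, h1, one_pow, one_mul, h0] at hgt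
      exact hgt rfl
  rw [Residual.trace_torsRep_frobenius hΔ hr hr3 hgood hA hσ] at htσ
  refine ⟨r, hr, hS, hr3, hgood, hr12, ?_⟩
  rw [hr1, neg_add_cancel, zero_pow two_ne_zero]
  exact pow_ne_zero 2 htσ

end Fermat.Agent.Lifting.Minimal

end
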