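import Fermat.Agent.Lifting.Minimal.BaseFacts
import Fermat.Agent.RT.Assembly.LocalPoint
import Fermat.Agent.RT.LocalAtP.Flat
import Fermat.Agent.BadPrime.Systems
import Fermat.Agent.EichlerShimura.ResidualCharacter
import Fermat.Agent.Density.Transfer

/-!
# `W[p]` is flat at `p` when it occurs at a level prime to `p`

The newform of a minimal level prime to `p` has a representation over a finite extension of `ℤ_p`
which is flat at `p` and reduces to `W[p]`; so `W[p]`, and its extensions of scalars to finite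
fields, are flat at `p`.
-/

set_option autoImplicit false
set_option linter.style.haveILetI false

noncomputable section

open IsLocalRing Polynomial
open scoped TensorProduct

namespace Fermat.Agent.Lifting.Minimal

local notation "ℚ̄" => AlgebraicClosure ℚ
local notation "Γℚ" => (AlgebraicClosure ℚ ≃ₐ[ℚ] AlgebraicClosure ℚ)

open RT RT.FlatCond

local instance : IsGalois ℚ ℚ̄ :=
  have : IsAlgClosure ℚ ℚ̄ := AlgebraicClosure.instIsAlgClosure ℚ
  IsAlgClosure.isGalois ℚ ℚ̄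

variable {p : ℕ} [Fact p.Prime]

/-- Flatness passes to an equivariant additive quotient with a field of coefficients. -/
theorem isFlatAt_of_surjective {k k' : Type} [Field k] [Finite k] [Field k'] [Finite k']
    {ρ : GaloisRepAdic k} {ρ' : GaloisRepAdic k'} (h : ρ.IsFlatAt p) (f : ρ.V →+ ρ'.V)
    (hf : Function.Surjective f) (hσ : ∀ σ v, f (ρ.ρ σ v) = ρ'.ρ σ (f v)) : ρ'.IsFlatAt p := by
  rw [isFlatAt_iff] at h ⊢
  refine ⟨Finite.of_surjective _ residue_surjective, fun I _ => ?_⟩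
  have hfin0 : Finite (k ⧸ (⊥ : Ideal k)) :=
    Finite.of_surjective _ Ideal.Quotient.mk_surjective
  have := finite_levelV ρ (⊥ : Ideal k)
  have h0 := h.2 ⊥ hfin0
  let e : LevelV ρ (⊥ : Ideal k) ≃ₗ[k] ρ.V :=
    Submodule.quotEquivOfEqBot _ (Submodule.bot_smul _)
  have he : ∀ v, e (toLevel ρ ⊥ v) = v := fun v => rfl
  refine h0.of_surjective
    ((toLevel ρ' I).toAddMonoidHom.comp (f.comp e.toLinearMap.toAddMonoidHom))
    ((toLevel_surjective ρ' I).comp (hf.comp e.surjective)) fun σ x => ?_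
  obtain ⟨v, rfl⟩ := toLevel_surjective ρ ⊥ x
  show toLevel ρ' I (f (e (σ • toLevel ρ ⊥ v))) = σ • toLevel ρ' I (f (e (toLevel ρ ⊥ v)))
  rw [smul_toLevel ρ ⊥, he, he, smul_toLevel ρ' I, hσ]

/-- Flatness of an extension of scalars descends to the prime field. -/
theorem isFlatAt_of_baseChange {k : Type} [Field k] [Finite k] (f : ZMod p →+* k)
    (ρ₀ : ResidualGaloisRep (ZMod p))
    (h : (GaloisRepAdic.ofResidualGaloisRep (ρ₀.baseChangeAlong f)).IsFlatAt p) :
    (GaloisRepAdic.ofResidualGaloisRep ρ₀).IsFlatAt p := by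
  letI : Algebra (ZMod p) k := f.toAlgebra
  obtain ⟨lam, hlam⟩ := Module.Projective.exists_dual_ne_zero (ZMod p) (one_ne_zero (α := k))
  let g : k ⊗[ZMod p] ρ₀.V →ₗ[ZMod p] ρ₀.V :=
    TensorProduct.lift (LinearMap.lsmul (ZMod p) ρ₀.V ∘ₗ lam)
  have hg : ∀ (c : k) (v : ρ₀.V), g (c ⊗ₜ v) = lam c • v := fun c v => rfl
  have hsurj : ∀ v : ρ₀.V, g ((1 : k) ⊗ₜ[ZMod p] ((lam 1)⁻¹ • v)) = v := fun v => by
    rw [hg, smul_smul, mul_inv_cancel₀ hlam, one_smul]
  refine isFlatAt_of_surjective h g.toAddMonoidHom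
    (fun v : ρ₀.V => ⟨(1 : k) ⊗ₜ[ZMod p] ((lam 1)⁻¹ • v), hsurj v⟩) fun σ x => ?_
  · show g ((ρ₀.ρ σ).baseChange k x) = ρ₀.ρ σ (g x)
    induction x using TensorProduct.induction_on with
    | zero => simp
    | tmul c v => rw [LinearMap.baseChange_tmul, hg, hg, map_smul]
    | add x y hx hy => simp [map_add, hx, hy]

variable {W : WeierstrassCurve ℤ} {M : ℕ}

/-- **Flatness at `p` of `W[p]` at a minimal level prime to `p`.** -/
theorem IsMinimalResidualLevel.isFlatAt (hS29 : RT.EigenformResidualRep)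
    (inputs : RT.Assembly.LocalInputs p) (hΔ : W.Δ ≠ 0) (hM : IsMinimalResidualLevel W p M)
    (hp2 : p ≠ 2) (hirr : W.ModRepIsIrreducible p) (hpM : ¬ p ∣ M) (k : Type) [Field k] [Finite k]
    (ι : ZMod p →+* k) :
    (GaloisRepAdic.ofResidualGaloisRep
      ((Residual.torsRep W p hΔ).baseChangeAlong ι)).IsFlatAt p := by
  classical
  have hp : p.Prime := Fact.out
  haveI : NeZero M := ⟨hM.pos.ne'⟩
  obtain ⟨g, 𝔪, hg, hmax, hpm, hcong⟩ := hM.exists_newform hS29 hΔ hp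
  have hΔ' : W.Δ.natAbs ≠ 0 := Int.natAbs_ne_zero.2 hΔ
  set S := (p * M * W.Δ.natAbs).primeFactors with hSdef
  have hne : p * M * W.Δ.natAbs ≠ 0 := mul_ne_zero (mul_ne_zero hp.ne_zero hM.pos.ne') hΔ'
  have hS : ∀ ℓ : ℕ, ℓ.Prime → ℓ ∉ S → ℓ ≠ p ∧ ¬ ℓ ∣ M ∧ W.IsGoodPrimeFor ℓ := by
    intro ℓ hℓ hℓS
    rw [hSdef, Nat.mem_primeFactors] at hℓS
    simp only [hℓ, true_and, hℓ.dvd_mul, hne, ne_eq, not_false_eq_true, and_true, not_or] at hℓS
    obtain ⟨⟨hℓp, hℓM⟩, hℓΔ⟩ := hℓS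
    exact ⟨fun h => hℓp (h ▸ dvd_rfl), hℓM, fun h => hℓΔ (Int.natCast_dvd.1 h)⟩
  have hpS : p ∈ S := Nat.mem_primeFactors.2 ⟨hp, (dvd_mul_right p M).mul_right _, hne⟩
  have hMS : ∀ q : ℕ, q.Prime → q ∣ M → q ∈ S := fun q hq h =>
    Nat.mem_primeFactors.2 ⟨hq, (h.mul_left p).mul_right _, hne⟩
  obtain ⟨chig, -, hT, -⟩ := BadPrime.exists_eigenChar hg.1 (↑S : Set ℕ)
  haveI := HeckeFinite.moduleFinite_heckeAlgebra M 2 (↑S : Set ℕ)
  haveI : Module.Finite ℤ chig.range :=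
    Module.Finite.of_surjective chig.rangeRestrict.toIntAlgHom.toLinearMap
      chig.rangeRestrict_surjective
  haveI : Module.IsTorsionFree ℤ chig.range :=
    Module.isTorsionFree_iff_algebraMap_injective.2 fun a b h => by
      simpa using congrArg (fun x : chig.range => (x : ℂ)) h
  haveI : Module.Free ℤ chig.range := Module.free_of_finite_type_torsion_free'
  haveI : Algebra.IsIntegral ℤ chig.range := Algebra.IsIntegral.of_finite ℤ _
  let j : chig.range →ₐ[ℤ] integralClosure ℤ ℂ :=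
    chig.range.subtype.toIntAlgHom.codRestrict _ fun x =>
      (Algebra.IsIntegral.isIntegral x).map chig.range.subtype.toIntAlgHom
  letI : Field (integralClosure ℤ ℂ ⧸ 𝔪) := Ideal.Quotient.field 𝔪
  have hp0 : (p : integralClosure ℤ ℂ ⧸ 𝔪) = 0 := by
    rw [← map_natCast (Ideal.Quotient.mk 𝔪)]
    exact Ideal.Quotient.eq_zero_iff_mem.2 hpm
  haveI : CharP (integralClosure ℤ ℂ ⧸ 𝔪) p := (CharP.charP_iff_prime_eq_zero hp).2 hp0
  let K := AlgebraicClosure (integralClosure ℤ ℂ ⧸ 𝔪)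
  haveI : CharP K p := charP_of_injective_algebraMap
    (algebraMap (integralClosure ℤ ℂ ⧸ 𝔪) K).injective p
  let ψ : chig.range →+* K :=
    ((algebraMap (integralClosure ℤ ℂ ⧸ 𝔪) K).comp (Ideal.Quotient.mk 𝔪)).comp j.toRingHom
  obtain ⟨O, _, _, _, _, _, _, hpO, χ, i, hi⟩ :=
    EichlerShimura.exists_padic_lift p chig.range K ψ
  haveI : CharP (ResidueField O) p := (CharP.charP_iff_prime_eq_zero hp).2 (by
    rw [← map_natCast (residue O), residue_eq_zero_iff]; exact hpO)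
  let c : Nat.Primes → O := fun ℓ => if h : ¬ (ℓ : ℕ) ∣ M ∧ (ℓ : ℕ) ∉ (↑S : Set ℕ) then
    χ (chig.rangeRestrict (CuspForm.heckeAlgebra.T ℓ.2 h.1 h.2)) else 0
  have hc : RT.Assembly.IsNewformSystem S M c :=
    ⟨g, chig, χ, hg, hT, fun ℓ hℓ hℓM hℓS => by simp only [c]; rw [dif_pos ⟨hℓM, hℓS⟩]⟩
  let ι₀ : ZMod p →+* ResidueField O := ZMod.castHom dvd_rfl _
  have hres : ∀ (ℓ : ℕ) (hℓ : ℓ.Prime), ℓ ∉ S →
      residue O (c ⟨ℓ, hℓ⟩) = residualSystem W (ResidueField O) ⟨ℓ, hℓ⟩ := by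
    intro ℓ hℓ hℓS
    obtain ⟨hℓp, hℓM, hgood⟩ := hS ℓ hℓ hℓS
    have hℓS' : ℓ ∉ (↑S : Set ℕ) := by simpa using hℓS
    refine i.injective ?_
    simp only [c]
    rw [dif_pos ⟨hℓM, hℓS'⟩, hi, residualSystem, map_intCast]
    obtain ⟨a, ha, ham⟩ := hcong ℓ hℓ hgood hℓM hℓp
    have hja : j (chig.rangeRestrict (CuspForm.heckeAlgebra.T hℓ hℓM hℓS')) = a :=
      Subtype.ext ((hT ℓ hℓ hℓM hℓS').trans ha.symm)
    show algebraMap (integralClosure ℤ ℂ ⧸ 𝔪) K (Ideal.Quotient.mk 𝔪 (j _)) = _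
    rw [hja, Ideal.Quotient.eq.2 ham, map_intCast, map_intCast]
  obtain ⟨ρ, hρ⟩ := RT.Assembly.exists_localPoint hp2 hpO hpS hMS inputs hc
    ((Residual.torsRep W p hΔ).baseChangeAlong ι₀)
    (Residual.torsRep_baseChangeAlong_isAbsolutelyIrreducible hΔ hp2 hirr ι₀)
    fun ℓ hℓ hℓS A hA σ hσ => by
      obtain ⟨hℓp, -, hgood⟩ := hS ℓ hℓ hℓS
      rw [hres ℓ hℓ hℓS]
      exact torsRep_baseChange_charpoly_frob hΔ ι₀ ⟨ℓ, hℓ⟩ hℓp hgood A hA σ hσ
  -- the residual representation is flat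
  have hloc : IsLocalHom (residue O) := inferInstance
  haveI : Finite (ResidueField (ResidueField O)) :=
    Finite.of_surjective _ residue_surjective
  have h1 : (ρ.baseChangeAlong (residue O) hloc).IsFlatAt p :=
    isFlatAt_baseChangeAlong (residue O) hloc (hρ.flat hpM)
  obtain ⟨e⟩ := hρ.residual_isEquiv
  haveI : Finite (ResidueField O) := inferInstance
  have h2 : (GaloisRepAdic.ofResidualGaloisRep
      ((Residual.torsRep W p hΔ).baseChangeAlong ι₀)).IsFlatAt p :=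
    isFlatAt_of_surjective h1 e.toLinearEquiv.toLinearMap.toAddMonoidHom e.toLinearEquiv.surjective
      fun σ v => e.map_apply σ v
  have h3 := isFlatAt_of_baseChange ι₀ _ h2
  haveI : Finite (ResidueField k) := Finite.of_surjective _ residue_surjective
  exact isFlatAt_baseChangeAlong ι inferInstance h3

end Fermat.Agent.Lifting.Minimal

end
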