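import Fermat.Agent.Lifting.Minimal.Flat
import Fermat.Agent.RT.Assembly.FromCurve

/-!
# No residually unramified `q ≡ 1 (mod p)` in a minimal level

`noMinimalTWLevel` from the patching contradiction `FalseOfBase` (PATCH part 6) and the externals.
-/

set_option autoImplicit false

noncomputable section

open IsLocalRing

namespace Fermat.Agent.Lifting.Minimal

open RT.Assembly

/-- The contradiction of the patching argument at a twisted place. -/
def FalseOfBase (p : ℕ) [Fact p.Prime] : Prop :=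
  ∀ (O : Type) [CommRing O] [IsDomain O] [IsDiscreteValuationRing O]
    [IsAdicComplete (maximalIdeal O) O] [Finite (ResidueField O)] [CharZero O]
    (B : Base O p) (m s : ℕ) (F : Frames B m s) (j₀ : Fin s),
    1 ≤ m → (∃ ζ : O, IsPrimitiveRoot ζ (p ^ m)) →
    (∀ j, (F.FP.setup.kind j).isTwisted = true → ¬ p ^ (m + 1) ∣ F.FP.setup.n j - 1) →
    (F.FP.setup.kind j₀).isTwisted = true →
    levelCond B ∅ (GaloisRepAdic.ofResidualGaloisRep B.ρbar) →
    (∀ (V : Type) [CommRing V] [IsDomain V] (j : Fin s),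
      (F.FP.setup.kind j).isTwisted = true → ∀ z : V, z ^ F.FP.setup.n j = z →
      (∃ k : ℕ, z ^ p ^ k = 1) → z ^ p ^ m = 1) →
    LocalInputs p → StrictOrdinaryOfNewform p → False

/-- **No residually unramified `q ≡ 1 (mod p)` in a minimal level.** -/
theorem noMinimalTWLevel (hS29 : RT.EigenformResidualRep) (h35 : BadPrime.NewformMultRep)
    (hfalse : ∀ (p : ℕ) [Fact p.Prime], p ≠ 2 → FalseOfBase p)
    (hin : ∀ (p : ℕ) [Fact p.Prime], p ≠ 2 → LocalInputs p)
    (hso : ∀ (p : ℕ) [Fact p.Prime], p ≠ 2 → StrictOrdinaryOfNewform p) : NoMinimalTWLevel := by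
  intro p hp hp2 W hΔ hW hirr M hM hall q hq hqM hqp hu hq1
  haveI : Fact p.Prime := ⟨hp⟩
  obtain ⟨O, i1, i2, i3, i4, i5, i6, B, m, s, F, j₀, hm1, hζ, hm, hj₀, -, hbar, hord⟩ :=
    exists_base hS29 h35 hΔ hW hp2 hirr hM hall
      (fun h k _ _ ι => hM.isFlatAt hS29 (hin p hp2) hΔ hp2 hirr h k ι) hq hqM hqp hu hq1
  exact hfalse p hp2 O B m s F j₀ hm1 hζ hm hj₀ hbar hord (hin p hp2) (hso p hp2)

end Fermat.Agent.Lifting.Minimal

end
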